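import Fermat.Agent.LT.T5.H40.HS0Spec

/-!
# Row LT, tower T5, leaf T5.02c `AdjTestC` (registry 1188; helper409, OFF-MAIN)

`adjTestC409 K 𝔫 τ : Fermat.Agent.LT.T5.H40.AdjTestC K 𝔫 τ`, VERBATIM against
`LT/T5/H40/HS0Spec.lean` (helper40@08c177f1b, sha256 de8bb55ac72c) on `LT/T5/Spec.lean` v3
(helper32, sha256 d6f8b00ae5f1).

The adjoint `φ*(g) = conj φ(g⁻¹)` of a test function is a test function:
* continuity, compact support: inversion is a homeomorphism of `GL₂(𝔸_K)`;
* bi-invariance: the level group and the groups `K_w` are stable under inversion, and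
  `τ(k⁻¹) = conj τ(k)` (`|τ| = 1`, `τ(1) = 1`);
* smoothness at infinity: `φ*(g h(t)) = conj φ(g⁻¹ · (g h(t)⁻¹ g⁻¹))`, and the family
  `g h(t)⁻¹ g⁻¹` is trivial at the finite places with smooth entries at the infinite places
  (inverse of a `2 × 2` matrix = adjugate / determinant).
-/

set_option autoImplicit false
set_option linter.style.haveILetI false

open IsDedekindDomain NumberField MeasureTheory
open scoped MatrixGroups ComplexConjugate ContDiff

noncomputable section

namespace Fermat.Agent.LT.T5.H409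

open Fermat.Agent.LT.H556.A0 Fermat.Agent.LT.T5

variable {K : Type} [Field K] [NumberField K]

/-! ## Components are multiplicative -/

/-- The raw component at the infinite place `w` (in the completion). -/
def rawInfHom409 (w : InfinitePlace K) : Adl K →+* w.Completion :=
  (Pi.evalRingHom (fun v : InfinitePlace K => v.Completion) w).comp
    (RingHom.fst (InfiniteAdeleRing K) (FiniteAdeleRing (𝓞 K) K))

/-- The matrix of raw components at `w`. -/
def rawInf409 (w : InfinitePlace K) (g : G K) : Matrix (Fin 2) (Fin 2) w.Completion :=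
  (g : Matrix (Fin 2) (Fin 2) (Adl K)).map (rawInfHom409 w)

theorem trivAtInf_iff409 (w : InfinitePlace K) (g : G K) :
    TrivAtInf w g ↔ rawInf409 w g = 1 := by
  constructor
  · intro h
    exact Matrix.ext fun i j => h i j
  · intro h i j
    have := congrFun (congrFun h i) j
    exact this

theorem rawInf_mul409 (w : InfinitePlace K) (g h : G K) :
    rawInf409 w (g * h) = rawInf409 w g * rawInf409 w h := by
  unfold rawInf409
  rw [Units.val_mul, Matrix.map_mul]

theorem rawInf_one409 (w : InfinitePlace K) : rawInf409 w (1 : G K) = 1 := by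
  unfold rawInf409
  rw [Units.val_one, Matrix.map_one _ (map_zero _) (map_one _)]

theorem infComp_mul409 (w : InfinitePlace K) (g h : G K) :
    infComp w (g * h) = infComp w g * infComp w h := by
  rw [infComp_eq_map, infComp_eq_map, infComp_eq_map, Units.val_mul, Matrix.map_mul]

theorem infComp_one409 (w : InfinitePlace K) : infComp w (1 : G K) = 1 := by
  rw [infComp_eq_map, Units.val_one, Matrix.map_one _ (map_zero _) (map_one _)]

theorem finComp_mul409 (v : HeightOneSpectrum (𝓞 K)) (g h : G K) :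
    finComp v (g * h) = finComp v g * finComp v h := by
  rw [finComp_eq_map, finComp_eq_map, finComp_eq_map, Units.val_mul, Matrix.map_mul]

theorem finComp_one409 (v : HeightOneSpectrum (𝓞 K)) : finComp v (1 : G K) = 1 := by
  rw [finComp_eq_map, Units.val_one, Matrix.map_one _ (map_zero _) (map_one _)]

theorem infComp_mul_inv409 (w : InfinitePlace K) (g : G K) :
    infComp w g * infComp w g⁻¹ = 1 := by
  rw [← infComp_mul409, mul_inv_cancel, infComp_one409]

theorem infComp_inv_mul409 (w : InfinitePlace K) (g : G K) :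
    infComp w g⁻¹ * infComp w g = 1 := by
  rw [← infComp_mul409, inv_mul_cancel, infComp_one409]

theorem trivAtInf_inv409 (w : InfinitePlace K) (g : G K) (h : TrivAtInf w g) :
    TrivAtInf w g⁻¹ := by
  rw [trivAtInf_iff409] at h ⊢
  have h1 : rawInf409 w g * rawInf409 w g⁻¹ = 1 := by
    rw [← rawInf_mul409, mul_inv_cancel, rawInf_one409]
  rw [h, one_mul] at h1
  exact h1

theorem trivAtFin_inv409 (v : HeightOneSpectrum (𝓞 K)) (g : G K) (h : TrivAtFin v g) :
    TrivAtFin v g⁻¹ := by
  unfold TrivAtFin at h ⊢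
  have h1 : finComp v g * finComp v g⁻¹ = 1 := by
    rw [← finComp_mul409, mul_inv_cancel, finComp_one409]
  rw [h, one_mul] at h1
  exact h1

theorem trivAtFin_mul409 (v : HeightOneSpectrum (𝓞 K)) (g h : G K) (hg : TrivAtFin v g)
    (hh : TrivAtFin v h) : TrivAtFin v (g * h) := by
  unfold TrivAtFin at hg hh ⊢
  rw [finComp_mul409, hg, hh, one_mul]

/-- Conjugation does not change triviality at a finite place. -/
theorem trivAtFin_conj409 (v : HeightOneSpectrum (𝓞 K)) (g h : G K) (hh : TrivAtFin v h) :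
    TrivAtFin v (g * h * g⁻¹) := by
  unfold TrivAtFin at hh ⊢
  rw [finComp_mul409, finComp_mul409, hh, mul_one, ← finComp_mul409, mul_inv_cancel,
    finComp_one409]

/-! ## The groups are stable under inversion -/

theorem inLevelGroup_inv409 (𝔫 : Ideal (𝓞 K)) (u : G K) (h : InLevelGroup 𝔫 u) :
    InLevelGroup 𝔫 u⁻¹ := by
  refine ⟨fun w => trivAtInf_inv409 w u (h.1 w), fun v i j => ?_⟩
  rw [inv_inv]
  exact ⟨(h.2 v i j).2, (h.2 v i j).1⟩

theorem isLocalAtInf_inv409 (w : InfinitePlace K) (k : G K) (h : IsLocalAtInf w k) :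
    IsLocalAtInf w k⁻¹ :=
  ⟨fun w' hw' => trivAtInf_inv409 w' k (h.1 w' hw'), fun v => trivAtFin_inv409 v k (h.2 v)⟩

theorem isArchCompact_inv409 (w : InfinitePlace K) (k : G K) (h : IsArchCompact w k) :
    IsArchCompact w k⁻¹ := by
  obtain ⟨hloc, hU, hdet⟩ := h
  have hinv : infComp w k⁻¹ = (infComp w k).conjTranspose := by
    have h1 : infComp w k⁻¹ * infComp w k = 1 := infComp_inv_mul409 w k
    calc infComp w k⁻¹ = infComp w k⁻¹ * (infComp w k * (infComp w k).conjTranspose) := by
          rw [hU, mul_one]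
      _ = (infComp w k⁻¹ * infComp w k) * (infComp w k).conjTranspose := by
          rw [Matrix.mul_assoc]
      _ = (infComp w k).conjTranspose := by rw [h1, Matrix.one_mul]
  refine ⟨isLocalAtInf_inv409 w k hloc, ?_, ?_⟩
  · rw [hinv, Matrix.conjTranspose_conjTranspose]
    exact mul_eq_one_comm.mp hU
  · intro hw
    have h1 : (infComp w k⁻¹ * infComp w k).det = 1 := by
      rw [infComp_inv_mul409, Matrix.det_one]
    rw [Matrix.det_mul, hdet hw, mul_one] at h1
    exact h1

theorem isArchCompact_one409 (w : InfinitePlace K) : IsArchCompact w (1 : G K) := by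
  refine ⟨⟨fun w' _ => ?_, fun v => finComp_one409 v⟩, ?_, fun _ => ?_⟩
  · rw [trivAtInf_iff409]
    exact rawInf_one409 w'
  · rw [infComp_one409, Matrix.conjTranspose_one, Matrix.one_mul]
  · rw [infComp_one409, Matrix.det_one]

/-! ## The `K_∞`-type on inverses -/

theorem ktype_one409 {τ : G K → ℂ} (hτ : IsKType τ) : τ 1 = 1 := by
  obtain ⟨w⟩ : Nonempty (InfinitePlace K) := inferInstance
  have h1 := hτ.mul w 1 1 (isArchCompact_one409 w) (isArchCompact_one409 w)
  rw [mul_one] at h1
  have hn := hτ.norm_one w 1 (isArchCompact_one409 w)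
  have hne : τ 1 ≠ 0 := by
    intro h0
    rw [h0, norm_zero] at hn
    exact zero_ne_one hn
  have h2 : τ 1 * 1 = τ 1 * τ 1 := by rw [mul_one]; exact h1
  exact (mul_left_cancel₀ hne h2).symm

theorem ktype_inv409 {τ : G K → ℂ} (hτ : IsKType τ) (w : InfinitePlace K) (k : G K)
    (hk : IsArchCompact w k) : τ k⁻¹ = conj (τ k) := by
  have h1 := hτ.mul w k k⁻¹ hk (isArchCompact_inv409 w k hk)
  rw [mul_inv_cancel, ktype_one409 hτ] at h1
  have hn := hτ.norm_one w k hk
  have h2 : τ k * conj (τ k) = 1 := by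
    rw [Complex.mul_conj, Complex.normSq_eq_norm_sq, hn]
    norm_num
  have hne : τ k ≠ 0 := by
    intro h0
    rw [h0, norm_zero] at hn
    exact zero_ne_one hn
  apply mul_left_cancel₀ hne
  rw [← h1, h2]

/-! ## Smoothness of the inverse family -/

/-- The component at `w` of the inverse is the inverse matrix. -/
theorem infComp_inv409 (w : InfinitePlace K) (g : G K) :
    infComp w g⁻¹ = (infComp w g)⁻¹ :=
  (Matrix.inv_eq_right_inv (infComp_mul_inv409 w g)).symm

theorem det_infComp_ne_zero409 (w : InfinitePlace K) (g : G K) : (infComp w g).det ≠ 0 := by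
  intro h0
  have h1 : (infComp w g * infComp w g⁻¹).det = 1 := by
    rw [infComp_mul_inv409, Matrix.det_one]
  rw [Matrix.det_mul, h0, zero_mul] at h1
  exact zero_ne_one h1

/-- The entries of the inverse of a `2 × 2` complex matrix. -/
theorem inv_apply_fin_two409 (A : Matrix (Fin 2) (Fin 2) ℂ) (_hA : A.det ≠ 0) (a b : Fin 2) :
    A⁻¹ a b = (A 0 0 * A 1 1 - A 0 1 * A 1 0)⁻¹ * (Matrix.adjugate A) a b := by
  rw [Matrix.inv_def, Ring.inverse_eq_inv', Matrix.smul_apply, smul_eq_mul, Matrix.det_fin_two]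

theorem contDiff_inv_entry409 {n : ℕ} (H : (Fin n → ℝ) → Matrix (Fin 2) (Fin 2) ℂ)
    (hH : ∀ i j : Fin 2, ContDiff ℝ ∞ (fun t => H t i j)) (hdet : ∀ t, (H t).det ≠ 0)
    (a b : Fin 2) : ContDiff ℝ ∞ (fun t => (H t)⁻¹ a b) := by
  have hd : ContDiff ℝ ∞ (fun t => (H t 0 0 * H t 1 1 - H t 0 1 * H t 1 0)⁻¹) := by
    refine ContDiff.inv (((hH 0 0).mul (hH 1 1)).sub ((hH 0 1).mul (hH 1 0))) ?_
    intro t
    have := hdet t
    rwa [Matrix.det_fin_two] at this
  have hadj : ContDiff ℝ ∞ (fun t => (Matrix.adjugate (H t)) a b) := by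
    simp only [Matrix.adjugate_fin_two]
    fin_cases a <;> fin_cases b
    · simpa using hH 1 1
    · simpa using (hH 0 1).neg
    · simpa using (hH 1 0).neg
    · simpa using hH 0 0
  have : (fun t => (H t)⁻¹ a b)
      = fun t => (H t 0 0 * H t 1 1 - H t 0 1 * H t 1 0)⁻¹ * (Matrix.adjugate (H t)) a b :=
    funext fun t => inv_apply_fin_two409 (H t) (hdet t) a b
  rw [this]
  exact hd.mul hadj

/-- The entries of `A * X(t) * B` are smooth if those of `X(t)` are. -/
theorem contDiff_conj_entry409 {n : ℕ} (A B : Matrix (Fin 2) (Fin 2) ℂ)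
    (X : (Fin n → ℝ) → Matrix (Fin 2) (Fin 2) ℂ)
    (hX : ∀ i j : Fin 2, ContDiff ℝ ∞ (fun t => X t i j)) (i j : Fin 2) :
    ContDiff ℝ ∞ (fun t => (A * X t * B) i j) := by
  simp only [Matrix.mul_apply, Fin.sum_univ_two]
  exact ((((contDiff_const.mul (hX 0 0)).add (contDiff_const.mul (hX 1 0))).mul contDiff_const).add
    (((contDiff_const.mul (hX 0 1)).add (contDiff_const.mul (hX 1 1))).mul contDiff_const))

/-! ## The leaf -/

theorem adjointFn_apply409 (φ : G K → ℂ) (g : G K) : adjointFn φ g = conj (φ g⁻¹) := rfl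

/-- **T5.02c.**  The adjoint of a test function is a test function. -/
theorem adjTestC409 (K : Type) [Field K] [NumberField K] (𝔫 : Ideal (𝓞 K)) (τ : G K → ℂ) :
    Fermat.Agent.LT.T5.H40.AdjTestC K 𝔫 τ := by
  intro φ hφ
  refine ⟨hφ.ktype, ?_, ?_, ?_, ?_⟩
  · -- continuity
    exact Complex.continuous_conj.comp (hφ.cont.comp continuous_inv)
  · -- compact support
    have h1 : HasCompactSupport (φ ∘ (Homeomorph.inv (G K))) :=
      hφ.supp.comp_homeomorph (Homeomorph.inv (G K))
    exact h1.comp_left (g := fun z : ℂ => conj z) (map_zero _)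
  · -- smoothness at infinity
    intro n h hfin hinf g
    have hfin' : ∀ (t : Fin n → ℝ) (v : HeightOneSpectrum (𝓞 K)),
        TrivAtFin v (g * (h t)⁻¹ * g⁻¹) :=
      fun t v => trivAtFin_conj409 v g (h t)⁻¹ (trivAtFin_inv409 v (h t) (hfin t v))
    have hinf' : ∀ (w : InfinitePlace K) (i j : Fin 2),
        ContDiff ℝ ∞ (fun t => infComp w (g * (h t)⁻¹ * g⁻¹) i j) := by
      intro w i j
      have e : (fun t => infComp w (g * (h t)⁻¹ * g⁻¹) i j)
          = fun t => (infComp w g * (infComp w (h t))⁻¹ * infComp w g⁻¹) i j := by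
        funext t
        rw [infComp_mul409, infComp_mul409, infComp_inv409 w (h t)]
      rw [e]
      exact contDiff_conj_entry409 _ _ _
        (fun a b => contDiff_inv_entry409 (fun t => infComp w (h t)) (hinf w)
          (fun t => det_infComp_ne_zero409 w (h t)) a b) i j
    have hs := hφ.smooth n (fun t => g * (h t)⁻¹ * g⁻¹) hfin' hinf' g⁻¹
    have e : (fun t => adjointFn φ (g * h t))
        = fun t => Complex.conjCLE (φ (g⁻¹ * (g * (h t)⁻¹ * g⁻¹))) := by
      funext t
      rw [adjointFn_apply409, Complex.conjCLE_apply]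
      congr 2
      group
    rw [e]
    exact Complex.conjCLE.contDiff.comp hs
  · -- bi-invariance
    have hinv := hφ.inv
    refine ⟨?_, ?_, ?_, ?_⟩
    · intro u hu g
      rw [adjointFn_apply409, adjointFn_apply409, mul_inv_rev,
        hinv.level_left u⁻¹ (inLevelGroup_inv409 𝔫 u hu)]
    · intro u hu g
      rw [adjointFn_apply409, adjointFn_apply409, mul_inv_rev,
        hinv.level_right u⁻¹ (inLevelGroup_inv409 𝔫 u hu)]
    · intro w k hk g
      rw [adjointFn_apply409, adjointFn_apply409, mul_inv_rev,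
        hinv.arch_left w k⁻¹ (isArchCompact_inv409 w k hk), ktype_inv409 hφ.ktype w k hk,
        map_mul, map_inv₀, Complex.conj_conj]
    · intro w k hk g
      rw [adjointFn_apply409, adjointFn_apply409, mul_inv_rev,
        hinv.arch_right w k⁻¹ (isArchCompact_inv409 w k hk), ktype_inv409 hφ.ktype w k hk,
        map_mul, map_inv₀, Complex.conj_conj]

end Fermat.Agent.LT.T5.H409

end
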